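import Fermat.Agent.Cusp.FrickeUnit

/-!
# The cuspidal class `(0) - (∞)` in `J₀(p)`
-/

set_option autoImplicit false
set_option linter.unusedSectionVars false

noncomputable section

open HahnSeries ModularCurve AlgebraicCurve Fermat.Agent.JZ IntermediateField

namespace Fermat.Agent.Cusp

local notation "Qb" => AlgebraicClosure ℚ

variable (p : ℕ) [hp : Fact p.Prime]

/-- The divisor `(0) - (∞)`. -/
def cuspDiv : Divisor Qb (FN Qb p) :=
  Finsupp.single (cuspZero p) 1 - Finsupp.single (cuspInf p) 1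

theorem cuspDiv_mem : cuspDiv p ∈ Divisor.degZero (K := Qb) (F := FN Qb p) := by
  rw [Divisor.mem_degZero, cuspDiv, map_sub, Divisor.degree_single, Divisor.degree_single,
    FF.deg_eq_one, FF.deg_eq_one, sub_self]

/-- The divisor `(0) - (∞)`, as a divisor of degree zero. -/
def cuspDiv₀ : Divisor.degZero (K := Qb) (F := FN Qb p) := ⟨cuspDiv p, cuspDiv_mem p⟩

/-- **The cuspidal class** `(0) - (∞) ∈ J₀(p)(ℚ̄)`. -/
def cuspClass : JZero p := Pic0.mk (cuspDiv₀ p)

section Galois

variable (σ : Qb ≃ₐ[ℚ] Qb)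

theorem galois_smul_jE (M : ℕ) [NeZero M] :
    arithmeticGalois (modularFunctionFieldFull M) σ • jE Qb M = jE Qb M :=
  Subtype.ext (by rw [coe_arithmeticGalois_smul, coe_jE, coeffMap_coeffEmb])

theorem galois_smul_jEN (M : ℕ) [NeZero M] :
    arithmeticGalois (modularFunctionFieldFull M) σ • jEN Qb M = jEN Qb M :=
  Subtype.ext (by
    rw [coe_arithmeticGalois_smul, coe_jEN, ModFn.coeffMap_qExpand, coeffMap_coeffEmb])

theorem galois_ord_jE (P : Place Qb (FN Qb p)) :
    (arithmeticGalois (modularFunctionFieldFull p) σ • P).ord (jE Qb p) = P.ord (jE Qb p) := by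
  have h := SemilinearAut.ord_smul (arithmeticGalois (modularFunctionFieldFull p) σ) P (jE Qb p)
  rwa [galois_smul_jE] at h

theorem galois_ord_jEN (P : Place Qb (FN Qb p)) :
    (arithmeticGalois (modularFunctionFieldFull p) σ • P).ord (jEN Qb p) = P.ord (jEN Qb p) := by
  have h := SemilinearAut.ord_smul (arithmeticGalois (modularFunctionFieldFull p) σ) P (jEN Qb p)
  rwa [galois_smul_jEN] at h

theorem galois_smul_cuspInf :
    arithmeticGalois (modularFunctionFieldFull p) σ • cuspInf p = cuspInf p := by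
  apply eq_cuspInf
  · rw [galois_ord_jE, cuspInf_j]
    norm_num
  · rw [galois_ord_jE, galois_ord_jEN, cuspInf_j, cuspInf_jN]
    ring

theorem galois_smul_cuspZero :
    arithmeticGalois (modularFunctionFieldFull p) σ • cuspZero p = cuspZero p := by
  apply eq_cuspZero
  · rw [galois_ord_jE, cuspZero_j]
    have := hp.out.pos
    omega
  · rw [galois_ord_jE, galois_ord_jEN, cuspZero_j, cuspZero_jN]
    ring

theorem galois_smul_cuspDiv :
    arithmeticGalois (modularFunctionFieldFull p) σ • cuspDiv p = cuspDiv p := by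
  rw [cuspDiv, smul_sub, SemilinearAut.smul_single, SemilinearAut.smul_single,
    galois_smul_cuspInf, galois_smul_cuspZero]

/-- **The cuspidal class is rational.** -/
theorem galois_smul_cuspClass : σ • cuspClass p = cuspClass p := by
  rw [galois_smul_pic0_def, cuspClass, SemilinearAut.pic0_smul_mk]
  exact congrArg Pic0.mk (Subtype.ext (galois_smul_cuspDiv p σ))

end Galois

/-- The criterion for multiples of the cuspidal class to vanish. -/
theorem zsmul_cuspClass_eq_zero_iff (m : ℤ) :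
    m • cuspClass p = 0 ↔ ∃ f : FN Qb p, f ≠ 0 ∧ ∀ v : Place Qb (FN Qb p),
      (m • cuspDiv p) v = v.ord f := by
  have h : m • cuspClass p = Pic0.mk (m • cuspDiv₀ p) := rfl
  rw [h]
  change QuotientAddGroup.mk _ = _ ↔ _
  rw [QuotientAddGroup.eq_zero_iff, AddSubgroup.mem_addSubgroupOf]
  exact Iff.rfl

theorem nsmul_cuspClass_eq_zero_iff (m : ℕ) :
    m • cuspClass p = 0 ↔ ∃ f : FN Qb p, f ≠ 0 ∧ ∀ v : Place Qb (FN Qb p),
      (m • cuspDiv p) v = v.ord f := by
  rw [← natCast_zsmul, zsmul_cuspClass_eq_zero_iff, natCast_zsmul]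

theorem cuspDiv_zero : cuspDiv p (cuspZero p) = 1 := by
  rw [cuspDiv, Finsupp.sub_apply, Finsupp.single_eq_same,
    Finsupp.single_eq_of_ne (cuspInf_ne_cuspZero p).symm, sub_zero]

theorem cuspDiv_inf : cuspDiv p (cuspInf p) = -1 := by
  rw [cuspDiv, Finsupp.sub_apply, Finsupp.single_eq_same,
    Finsupp.single_eq_of_ne (cuspInf_ne_cuspZero p), zero_sub]

theorem cuspDiv_of_nonneg {v : Place Qb (FN Qb p)} (hv : 0 ≤ v.ord (jE Qb p)) :
    cuspDiv p v = 0 := by
  have h0 : v ≠ cuspZero p := by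
    rintro rfl
    rw [cuspZero_j] at hv
    have := hp.out.pos
    omega
  have h1 : v ≠ cuspInf p := by
    rintro rfl
    rw [cuspInf_j] at hv
    omega
  rw [cuspDiv, Finsupp.sub_apply, Finsupp.single_eq_of_ne h0, Finsupp.single_eq_of_ne h1, sub_zero]

/-- The divisor of the modular unit. -/
theorem ord_uE (v : Place Qb (FN Qb p)) : v.ord (uE p) = (p - 1) * cuspDiv p v := by
  by_cases hv : v.ord (jE Qb p) < 0
  · rcases eq_cusp p v hv with rfl | rfl
    · rw [cuspInf_uE, cuspDiv_inf]; ring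
    · rw [cuspZero_uE, cuspDiv_zero]; ring
  · rw [not_lt] at hv
    rw [ord_uE_of_nonneg p v hv, cuspDiv_of_nonneg p hv, mul_zero]

/-- **The cuspidal class is torsion**, killed by `p - 1`. -/
theorem pred_smul_cuspClass : (p - 1) • cuspClass p = 0 := by
  rw [nsmul_cuspClass_eq_zero_iff]
  refine ⟨uE p, uE_ne_zero p, fun v => ?_⟩
  rw [ord_uE, Finsupp.smul_apply, nsmul_eq_mul, Nat.cast_sub hp.out.one_le, Nat.cast_one]

end Fermat.Agent.Cusp
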