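import Fermat.Agent.Cusp.Place
import Fermat.Agent.Red.GaussRes
import Fermat.Agent.Gam0.Index

/-!
# The Fricke involution and the two cusps of `X₀(p)`
-/

set_option autoImplicit false
set_option linter.unusedSectionVars false

noncomputable section

open HahnSeries ModularCurve AlgebraicCurve Fermat.Agent.JZ IntermediateField

namespace Fermat.Agent.Cusp

section

variable (L : Type) [Field L] [Algebra ℚ L]

/-- `j` as an element of the function field of `X₀(M)` -/
def jE (M : ℕ) [NeZero M] : FN L M :=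
  ⟨coeffEmb L jq, by
    have := coeffEmb_qExpand_mem (L := L) (M := M) (d := 1) (one_dvd M)
    rwa [qExpand_one_apply] at this⟩

/-- `j_d` as an element of the function field of `X₀(M)` -/
def jEd (M : ℕ) [NeZero M] (d : ℕ) [NeZero d] (h : d ∣ M) : FN L M :=
  ⟨qExpand L d (coeffEmb L jq), coeffEmb_qExpand_mem h⟩

/-- `j_M` as an element of the function field of `X₀(M)` -/
def jEN (M : ℕ) [NeZero M] : FN L M := jEd L M M dvd_rfl

variable {L}

@[simp] theorem coe_jE (M : ℕ) [NeZero M] : ((jE L M : FN L M) : LaurentSeries L) = coeffEmb L jq :=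
  rfl

@[simp] theorem coe_jEd (M : ℕ) [NeZero M] (d : ℕ) [NeZero d] (h : d ∣ M) :
    ((jEd L M d h : FN L M) : LaurentSeries L) = qExpand L d (coeffEmb L jq) := rfl

@[simp] theorem coe_jEN (M : ℕ) [NeZero M] :
    ((jEN L M : FN L M) : LaurentSeries L) = qExpand L M (coeffEmb L jq) := rfl

theorem order_j : (coeffEmb L jq).order = -1 := by
  have h : coeffEmb L jq = jqModC L := ModFn.coeffMap_jqModC (algebraMap ℚ L)
  rw [h]
  exact ModFn.order_jqModC

theorem order_jd (d : ℕ) [NeZero d] : (qExpand L d (coeffEmb L jq)).order = -d := by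
  rw [ModFn.order_qExpand, order_j]
  ring

theorem exists_order_neg_one (M : ℕ) [NeZero M] :
    ∃ x : FN L M, (x : LaurentSeries L).order = -1 := ⟨jE L M, order_j⟩

/-- Ring homomorphisms on the function field are determined by constants, `j` and `j_M`. -/
theorem ringHom_ext (H : ModularFieldInputs L) {M : ℕ} [NeZero M] {R : Type*} [Field R]
    (f g : FN L M →+* R) (h0 : ∀ a : L, f (algebraMap L _ a) = g (algebraMap L _ a))
    (h1 : f (jE L M) = g (jE L M)) (h2 : f (jEN L M) = g (jEN L M)) : f = g := by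
  have h := eq_top_of_gen H (f.eqLocusField g) h0
    (fun x hx => by
      have : x = jE L M := Subtype.ext hx
      rw [this]; exact h1)
    (fun x hx => by
      have : x = jEN L M := Subtype.ext hx
      rw [this]; exact h2)
  ext x
  have : x ∈ f.eqLocusField g := by rw [h]; trivial
  exact this

theorem exists_fricke_aux [Algebra L ℂ] (p : ℕ) (hp : p.Prime) (M : ℕ) [NeZero M] [NeZero p]
    (hM : M = 1 * p) : ∃ w : FN L M →ₐ[L] FN L M,
      w (jE L M) = jEd L M p (by rw [hM, one_mul]) ∧ w (jEd L M p (by rw [hM, one_mul])) = jE L M := by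
  subst hM
  obtain ⟨w, h1, h2⟩ := ESh.exists_atkinLehner L 1 p hp (fun h => hp.one_lt.ne' (Nat.dvd_one.mp h))
  refine ⟨w, ?_, ?_⟩
  · have e1 : jE L (1 * p) = heckeAlphaBar L 1 p (jE L 1) := Subtype.ext rfl
    have e2 : jEd L (1 * p) p (by rw [one_mul]) = heckeBetaBar L 1 p (jE L 1) := Subtype.ext rfl
    rw [e1, h1, e2]
  · have e1 : jE L (1 * p) = heckeAlphaBar L 1 p (jE L 1) := Subtype.ext rfl
    have e2 : jEd L (1 * p) p (by rw [one_mul]) = heckeBetaBar L 1 p (jE L 1) := Subtype.ext rfl
    rw [e2, h2, e1]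

theorem exists_fricke [Algebra L ℂ] (p : ℕ) [hp : Fact p.Prime] [NeZero p] :
    ∃ w : FN L p →ₐ[L] FN L p, w (jE L p) = jEN L p ∧ w (jEN L p) = jE L p :=
  exists_fricke_aux p hp.out p (one_mul p).symm

/-- A Fricke involution. -/
structure IsFricke {p : ℕ} [NeZero p] (w : FN L p →ₐ[L] FN L p) : Prop where
  j : w (jE L p) = jEN L p
  jN : w (jEN L p) = jE L p

theorem IsFricke.comp_self (H : ModularFieldInputs L) {p : ℕ} [NeZero p] {w : FN L p →ₐ[L] FN L p}
    (hw : IsFricke w) : w.comp w = AlgHom.id L (FN L p) := by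
  have h := ringHom_ext H (w.comp w).toRingHom (RingHom.id _)
    (fun a => by
      change w (w (algebraMap L _ a)) = _
      rw [w.commutes, w.commutes]
      rfl)
    (by
      change w (w (jE L p)) = jE L p
      rw [hw.j, hw.jN])
    (by
      change w (w (jEN L p)) = jEN L p
      rw [hw.jN, hw.j])
  exact AlgHom.ext fun x => RingHom.congr_fun h x

/-- The Fricke involution as an automorphism. -/
def IsFricke.equiv (H : ModularFieldInputs L) {p : ℕ} [NeZero p] {w : FN L p →ₐ[L] FN L p}
    (hw : IsFricke w) : FN L p ≃ₐ[L] FN L p :=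
  AlgEquiv.ofAlgHom w w (hw.comp_self H) (hw.comp_self H)

end

section Bar

local notation "Qb" => AlgebraicClosure ℚ

variable (p : ℕ) [hp : Fact p.Prime]

theorem exists_frickeBar : ∃ w : FN Qb p →ₐ[Qb] FN Qb p, IsFricke w := by
  have : Algebra.IsAlgebraic ℚ Qb := AlgebraicClosure.isAlgebraic ℚ
  let _ : Algebra Qb ℂ := (IsAlgClosed.lift (R := ℚ) (S := Qb) (M := ℂ)).toRingHom.toAlgebra
  obtain ⟨w, h1, h2⟩ := exists_fricke (L := Qb) p
  exact ⟨w, h1, h2⟩

/-- the Fricke involution over `ℚ̄`, as an algebra homomorphism -/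
def frickeHom : FN Qb p →ₐ[Qb] FN Qb p := (exists_frickeBar p).choose

theorem isFricke_frickeHom : IsFricke (frickeHom p) := (exists_frickeBar p).choose_spec

/-- the Fricke involution over `ℚ̄` -/
def fricke : FN Qb p ≃ₐ[Qb] FN Qb p := (isFricke_frickeHom p).equiv modularFieldInputsBar

theorem fricke_apply (x : FN Qb p) : fricke p x = frickeHom p x := rfl

theorem fricke_j : fricke p (jE Qb p) = jEN Qb p := (isFricke_frickeHom p).j

theorem fricke_jN : fricke p (jEN Qb p) = jE Qb p := (isFricke_frickeHom p).jN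

theorem fricke_fricke (x : FN Qb p) : fricke p (fricke p x) = x :=
  DFunLike.congr_fun ((isFricke_frickeHom p).comp_self modularFieldInputsBar) x

theorem fricke_inv : (fricke p)⁻¹ = fricke p := by
  rw [inv_eq_iff_mul_eq_one]
  exact AlgEquiv.ext fun x => fricke_fricke p x

/-- The cusp `∞` of `X₀(p)`. -/
def cuspInf : Place Qb (FN Qb p) := placeInf (FN Qb p) (exists_order_neg_one p)

/-- The cusp `0` of `X₀(p)`. -/
def cuspZero : Place Qb (FN Qb p) := fricke p • cuspInf p

theorem ord_cuspInf (x : FN Qb p) : (cuspInf p).ord x = (x : LaurentSeries Qb).order :=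
  ord_placeInf _ _ _

theorem ord_cuspZero (x : FN Qb p) :
    (cuspZero p).ord x = ((fricke p x : FN Qb p) : LaurentSeries Qb).order := by
  have h := Place.ord_smul (fricke p) (cuspInf p) (fricke p x)
  rw [fricke_fricke] at h
  rw [← ord_cuspInf, ← h]
  rfl

theorem cuspInf_j : (cuspInf p).ord (jE Qb p) = -1 := by
  rw [ord_cuspInf]; exact order_j

theorem cuspInf_jN : (cuspInf p).ord (jEN Qb p) = -p := by
  rw [ord_cuspInf]; exact order_jd p

theorem cuspZero_j : (cuspZero p).ord (jE Qb p) = -p := by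
  rw [ord_cuspZero, fricke_j]; exact order_jd p

theorem cuspZero_jN : (cuspZero p).ord (jEN Qb p) = -1 := by
  rw [ord_cuspZero, fricke_jN]; exact order_j

theorem cuspInf_ne_cuspZero : cuspInf p ≠ cuspZero p := by
  intro h
  have h1 := cuspInf_j p
  rw [h, cuspZero_j] at h1
  have := hp.out.one_lt
  omega

instance isFnFieldBar' : FF.IsFnField Qb (FN Qb p) := modularFieldInputsBar.fnField p

theorem dedekindPsi_prime : dedekindPsi p = p + 1 := by
  have h2 := Fermat.Agent.Gam0.dedekindPsi_mul_of_not_dvd (M := 1) one_pos hp.out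
    (fun h => hp.out.one_lt.ne' (Nat.dvd_one.mp h))
  rwa [one_mul, dedekindPsi_one, mul_one] at h2

theorem finrank_jE : Module.finrank Qb⟮jE Qb p⟯ (FN Qb p) = p + 1 := by
  rw [Red.finrank_adjoin_sub, coe_jE, modularFieldInputsBar.relfinrank p, dedekindPsi_prime]

theorem transcendental_jE : Transcendental Qb (jE Qb p) :=
  FF.transcendental_of_ord_ne_zero (cuspInf p) (by rw [cuspInf_j]; norm_num)

/-- **The cusps are the only poles of `j`.** -/
theorem eq_cusp (P : Place Qb (FN Qb p)) (hP : P.ord (jE Qb p) < 0) :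
    P = cuspInf p ∨ P = cuspZero p := by
  classical
  by_contra hcon
  push Not at hcon
  have htr : Transcendental Qb (jE Qb p)⁻¹ := FF.transcendental_inv (transcendental_jE p)
  have hsum := FF.sum_zeros_fnField htr
  rw [FF.adjoin_simple_inv, finrank_jE] at hsum
  have hfin := FF.finite_zeros_of_fnField (K := Qb) (jE Qb p)⁻¹
  rw [finsum_mem_eq_finite_toFinset_sum _ hfin] at hsum
  have hmem : ∀ v : Place Qb (FN Qb p), v ∈ hfin.toFinset ↔ v.ord (jE Qb p) < 0 := by
    intro v
    rw [Set.Finite.mem_toFinset]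
    change 0 < v.ord (jE Qb p)⁻¹ ↔ _
    rw [v.ord_inv]
    omega
  have hsub : ({cuspInf p, cuspZero p, P} : Finset (Place Qb (FN Qb p))) ⊆ hfin.toFinset := by
    intro v hv
    rw [hmem]
    simp only [Finset.mem_insert, Finset.mem_singleton] at hv
    rcases hv with rfl | rfl | rfl
    · rw [cuspInf_j]; norm_num
    · rw [cuspZero_j]
      have := hp.out.pos
      omega
    · exact hP
  have hle := Finset.sum_le_sum_of_subset_of_nonneg (f := fun v : Place Qb (FN Qb p) =>
    v.ord (jE Qb p)⁻¹ * (v.deg : ℤ)) hsub (fun v hv _ => by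
      rw [hmem] at hv
      rw [v.ord_inv]
      exact mul_nonneg (by omega) (by positivity))
  rw [Finset.sum_insert (by
      simp only [Finset.mem_insert, Finset.mem_singleton, not_or]
      exact ⟨cuspInf_ne_cuspZero p, Ne.symm hcon.1⟩),
    Finset.sum_insert (by
      simp only [Finset.mem_singleton]
      exact Ne.symm hcon.2), Finset.sum_singleton, hsum] at hle
  simp only [Place.ord_inv, cuspInf_j, cuspZero_j, FF.deg_eq_one] at hle
  push_cast at hle
  omega

theorem jN_neg_of_j_neg {P : Place Qb (FN Qb p)} (hP : P.ord (jE Qb p) < 0) :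
    P.ord (jEN Qb p) < 0 := by
  have := hp.out.pos
  rcases eq_cusp p P hP with rfl | rfl
  · rw [cuspInf_jN]; omega
  · rw [cuspZero_jN]; omega

theorem j_neg_of_jN_neg {P : Place Qb (FN Qb p)} (hP : P.ord (jEN Qb p) < 0) :
    P.ord (jE Qb p) < 0 := by
  have h1 := Place.ord_smul (fricke p) P (jEN Qb p)
  rw [fricke_jN] at h1
  have h2 := Place.ord_smul (fricke p) P (jE Qb p)
  rw [fricke_j] at h2
  rw [← h2]
  apply jN_neg_of_j_neg
  rw [h1]
  exact hP

theorem j_neg_iff {P : Place Qb (FN Qb p)} : P.ord (jE Qb p) < 0 ↔ P.ord (jEN Qb p) < 0 :=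
  ⟨jN_neg_of_j_neg p, j_neg_of_jN_neg p⟩

/-- characterisation of the cusp `∞` -/
theorem eq_cuspInf {P : Place Qb (FN Qb p)} (hP : P.ord (jE Qb p) < 0)
    (h : P.ord (jEN Qb p) = p * P.ord (jE Qb p)) : P = cuspInf p := by
  rcases eq_cusp p P hP with h1 | rfl
  · exact h1
  · exfalso
    rw [cuspZero_jN, cuspZero_j] at h
    have := hp.out.one_lt
    nlinarith

/-- characterisation of the cusp `0` -/
theorem eq_cuspZero {P : Place Qb (FN Qb p)} (hP : P.ord (jE Qb p) < 0)
    (h : P.ord (jE Qb p) = p * P.ord (jEN Qb p)) : P = cuspZero p := by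
  rcases eq_cusp p P hP with rfl | h1
  · exfalso
    rw [cuspInf_jN, cuspInf_j] at h
    have := hp.out.one_lt
    nlinarith
  · exact h1

/-- the ratio of the orders of `j` and `j_p` at a pole -/
theorem ratio {P : Place Qb (FN Qb p)} (hP : P.ord (jE Qb p) < 0) :
    P.ord (jEN Qb p) = p * P.ord (jE Qb p) ∨ P.ord (jE Qb p) = p * P.ord (jEN Qb p) := by
  rcases eq_cusp p P hP with rfl | rfl
  · left; rw [cuspInf_jN, cuspInf_j]; ring
  · right; rw [cuspZero_jN, cuspZero_j]; ring

end Bar

end Fermat.Agent.Cusp
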