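import Fermat.Agent.Cusp.Unit
import Fermat.Agent.Cusp.Fricke
import Fermat.Agent.Red.Eval
import Fermat.Agent.Top.PlaceLift

/-!
# The Fricke involution on the modular unit; its divisor
-/

set_option autoImplicit false
set_option linter.unusedSectionVars false

noncomputable section

open UpperHalfPlane hiding I
open HahnSeries ModularCurve AlgebraicCurve ModularForm CongruenceSubgroup IntermediateField
open Fermat.Agent.ModFn Fermat.Agent.Top Fermat.Agent.JZ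
open scoped MatrixGroups ModularForm

namespace Fermat.Agent.Cusp

local notation "Qb" => AlgebraicClosure ℚ

section Complex

variable (p : ℕ) [hp : Fact p.Prime]

theorem jH_frk (τ : ℍ) : jH (frk p τ) = jd p τ := by
  rw [frk, jH_smul]
  rfl

theorem jd_frk (τ : ℍ) : jd p (frk p τ) = jH τ := by
  rw [← jH_frk, frk_frk]

theorem toFC_jH' : toFC p ⟨jH, jH_mem_WN p⟩ = jE ℂ p := Subtype.ext (by
  rw [coe_toFC, wq_jH, coe_jE, Top.coeffEmb_jq])

theorem toFC_jd' : toFC p ⟨jd p, jdN_mem_WN p⟩ = jEN ℂ p := Subtype.ext (by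
  rw [coe_toFC, coe_jEN, Top.coeffEmb_jq]
  exact wq_jd (dvd_refl p))

/-- pairs `(f, f ∘ w_p)` compatible with the Fricke involution -/
def frkRel (w : FN ℂ p →ₐ[ℂ] FN ℂ p) : Subalgebra ℂ (WN p) where
  carrier := {f | ∃ f' : WN p, (∀ τ, f'.1 τ = f.1 (frk p τ)) ∧ w (toFC p f) = toFC p f'}
  mul_mem' := by
    rintro f g ⟨f', hf, hf'⟩ ⟨g', hg, hg'⟩
    refine ⟨f' * g', fun τ => ?_, ?_⟩
    · change f'.1 τ * g'.1 τ = f.1 (frk p τ) * g.1 (frk p τ)
      rw [hf, hg]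
    · rw [map_mul, map_mul, map_mul, hf', hg']
  add_mem' := by
    rintro f g ⟨f', hf, hf'⟩ ⟨g', hg, hg'⟩
    refine ⟨f' + g', fun τ => ?_, ?_⟩
    · change f'.1 τ + g'.1 τ = f.1 (frk p τ) + g.1 (frk p τ)
      rw [hf, hg]
    · rw [map_add, map_add, map_add, hf', hg']
  algebraMap_mem' c := ⟨algebraMap ℂ _ c, fun τ => rfl, by
    rw [AlgHom.commutes, AlgHom.commutes]⟩

theorem frkRel_of_A0 {w : FN ℂ p →ₐ[ℂ] FN ℂ p} (hw : IsFricke w) (f : WN p) (hf : f.1 ∈ A0 p) :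
    f ∈ frkRel p w := by
  have h1 : A0 p ≤ (frkRel p w).map (WN p).val := by
    rw [A0, Algebra.adjoin_le_iff]
    rintro g (rfl | rfl)
    · refine ⟨⟨jH, jH_mem_WN p⟩, ⟨⟨jd p, jdN_mem_WN p⟩, fun τ => (jH_frk p τ).symm, ?_⟩, rfl⟩
      rw [toFC_jH', toFC_jd']
      exact hw.j
    · refine ⟨⟨jd p, jdN_mem_WN p⟩, ⟨⟨jH, jH_mem_WN p⟩, fun τ => (jd_frk p τ).symm, ?_⟩, rfl⟩
      rw [toFC_jH', toFC_jd']
      exact hw.jN
  obtain ⟨g, hg, hgf⟩ := h1 hf
  have : g = f := Subtype.ext hgf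
  rw [← this]
  exact hg

/-- The Fricke involution on functions. -/
theorem fricke_toFC {w : FN ℂ p →ₐ[ℂ] FN ℂ p} (hw : IsFricke w) (f f' : WN p)
    (hf : ∀ τ, f'.1 τ = f.1 (frk p τ)) : w (toFC p f) = toFC p f' := by
  obtain ⟨a, ha, b, hb, hb0, hab⟩ := exists_quot_of_mem_WN f.2
  obtain ⟨a', ha1, ha2⟩ := frkRel_of_A0 p hw ⟨a, A0_le_WN p ha⟩ ha
  obtain ⟨b', hb1, hb2⟩ := frkRel_of_A0 p hw ⟨b, A0_le_WN p hb⟩ hb
  have h1 : f * ⟨b, A0_le_WN p hb⟩ = (⟨a, A0_le_WN p ha⟩ : WN p) := Subtype.ext hab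
  have h2 : f' * b' = a' := by
    apply Subtype.ext
    funext τ
    change f'.1 τ * b'.1 τ = a'.1 τ
    rw [hf, hb1, ha1]
    exact congrFun hab (frk p τ)
  have h3 : toFC p ⟨b, A0_le_WN p hb⟩ ≠ 0 := fun h => by
    have := toFC_injective (h.trans (map_zero _).symm)
    exact hb0 (congrArg Subtype.val this)
  have h4 : w (toFC p ⟨b, A0_le_WN p hb⟩) ≠ 0 := (map_ne_zero w).mpr h3
  apply mul_right_cancel₀ h4
  rw [← map_mul, ← map_mul, h1, ha2, hb2, ← map_mul, h2]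

/-- the modular unit over `ℂ` -/
def uC : WN p := ⟨Uf p, Uf_mem_WN p⟩

/-- its inverse -/
def uCi : WN p := ⟨(Uf p)⁻¹, Uf_inv_mem_WN p⟩

theorem uC_mul_uCi : uC p * uCi p = 1 := by
  apply Subtype.ext
  funext τ
  exact mul_inv_cancel₀ (Uf_ne_zero p τ)

theorem toFC_uCi : toFC p (uCi p) = (toFC p (uC p))⁻¹ := by
  apply eq_inv_of_mul_eq_one_right
  rw [← map_mul, uC_mul_uCi, map_one]

theorem fricke_uC {w : FN ℂ p →ₐ[ℂ] FN ℂ p} (hw : IsFricke w) :
    w (toFC p (uC p)) = algebraMap ℂ _ ((p : ℂ) ^ 12) * (toFC p (uC p))⁻¹ := by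
  rw [fricke_toFC p hw (uC p) (algebraMap ℂ _ ((p : ℂ) ^ 12) * uCi p) (fun τ => ?_), map_mul,
    AlgHom.commutes, toFC_uCi]
  change (p : ℂ) ^ 12 * (Uf p τ)⁻¹ = Uf p (frk p τ)
  rw [Uf_frk, div_eq_mul_inv]

theorem coe_toFC_uC : (toFC p (uC p) : LaurentSeries ℂ) = coeffEmb ℂ (modularUnitSeries p) := by
  rw [coe_toFC]
  exact wq_eq _ (hasExp_Uf p)

end Complex

section Bar

variable (p : ℕ) [hp : Fact p.Prime]

theorem unit_mem : coeffEmb Qb (modularUnitSeries p) ∈ FN Qb p := by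
  have : Algebra.IsAlgebraic ℚ Qb := AlgebraicClosure.isAlgebraic ℚ
  let _ : Algebra Qb ℂ := (IsAlgClosed.lift (R := ℚ) (S := Qb) (M := ℂ)).toRingHom.toAlgebra
  apply mem_baseChange_of_coeffMap_mem (K := Qb) (E := ℂ)
  rw [coeffMap_coeffEmb', ← coe_toFC_uC]
  exact (toFC p (uC p)).2

/-- The modular unit `Δ(τ)/Δ(pτ)` over `ℚ̄`. -/
def uE : FN Qb p := ⟨coeffEmb Qb (modularUnitSeries p), unit_mem p⟩

@[simp] theorem coe_uE : (uE p : LaurentSeries Qb) = coeffEmb Qb (modularUnitSeries p) := rfl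

theorem order_coeffEmb {L : Type*} [Field L] [Algebra ℚ L] (x : LaurentSeries ℚ) :
    (coeffEmb L x).order = x.order := by
  by_cases hx : x = 0
  · rw [hx, map_zero, HahnSeries.order_zero, HahnSeries.order_zero]
  have h1 : (coeffEmb L x).coeff x.order ≠ 0 := by
    rw [coeffEmb_coeff, Ne, map_eq_zero]
    exact HahnSeries.coeff_order_eq_zero.not.mpr hx
  have h0 : coeffEmb L x ≠ 0 := HahnSeries.ne_zero_of_coeff_ne_zero h1
  refine le_antisymm (HahnSeries.order_le_of_coeff_ne_zero h1) ?_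
  by_contra hlt
  rw [not_le] at hlt
  apply h0
  rw [← HahnSeries.coeff_order_eq_zero, coeffEmb_coeff, HahnSeries.coeff_eq_zero_of_lt_order hlt,
    map_zero]

theorem order_uE : (uE p : LaurentSeries Qb).order = 1 - p := by
  rw [coe_uE, order_coeffEmb, order_modularUnitSeries]

theorem uE_ne_zero : uE p ≠ 0 := by
  intro h
  have h1 : (uE p : LaurentSeries Qb).order = 0 := by
    rw [h, ZeroMemClass.coe_zero, HahnSeries.order_zero]
  rw [order_uE] at h1
  have := hp.out.one_lt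
  omega

theorem uE_coeff : (uE p : LaurentSeries Qb).coeff (1 - p) = 1 := by
  rw [coe_uE, coeffEmb_coeff, coeff_modularUnitSeries_self, map_one]

theorem fricke_uE : fricke p (uE p) = algebraMap Qb _ ((p : Qb) ^ 12) * (uE p)⁻¹ := by
  have : Algebra.IsAlgebraic ℚ Qb := AlgebraicClosure.isAlgebraic ℚ
  let _ : Algebra Qb ℂ := (IsAlgClosed.lift (R := ℚ) (S := Qb) (M := ℂ)).toRingHom.toAlgebra
  obtain ⟨w, h1, h2⟩ := exists_fricke (L := ℂ) p
  have hw : IsFricke w := ⟨h1, h2⟩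
  set e := baseChangeEmb Qb ℂ (modularFunctionFieldFull p) with he
  have hej : e (jE Qb p) = jE ℂ p := Subtype.ext (coeffMap_coeffEmb' _)
  have hejN : e (jEN Qb p) = jEN ℂ p := Subtype.ext (by
    rw [he, coe_baseChangeEmb, coe_jEN, coe_jEN, ModFn.coeffMap_qExpand, coeffMap_coeffEmb'])
  have heu : e (uE p) = toFC p (uC p) := Subtype.ext (by
    rw [he, coe_baseChangeEmb, coe_toFC_uC, coe_uE, coeffMap_coeffEmb'])
  have hcomm : e.comp (fricke p : FN Qb p →+* FN Qb p) = (w : FN ℂ p →+* FN ℂ p).comp e := by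
    apply ringHom_ext modularFieldInputsBar
    · intro a
      change e (fricke p (algebraMap Qb _ a)) = w (e (algebraMap Qb _ a))
      rw [AlgEquiv.commutes, he, baseChangeEmb_algebraMap]
      exact (w.commutes _).symm
    · change e (fricke p (jE Qb p)) = w (e (jE Qb p))
      rw [fricke_j, hej, hejN, h1]
    · change e (fricke p (jEN Qb p)) = w (e (jEN Qb p))
      rw [fricke_jN, hej, hejN, h2]
  apply e.injective
  have h3 : e (fricke p (uE p)) = w (e (uE p)) := RingHom.congr_fun hcomm (uE p)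
  rw [h3, heu, fricke_uC p hw, map_mul, map_inv₀, heu, he, baseChangeEmb_algebraMap,
    map_pow (algebraMap Qb ℂ), map_natCast (algebraMap Qb ℂ)]

theorem ord_uE_of_nonneg (P : Place Qb (FN Qb p)) (hP : 0 ≤ P.ord (jE Qb p)) :
    P.ord (uE p) = 0 := by
  have : Algebra.IsAlgebraic ℚ Qb := AlgebraicClosure.isAlgebraic ℚ
  let _ : Algebra Qb ℂ := (IsAlgClosed.lift (R := ℚ) (S := Qb) (M := ℂ)).toRingHom.toAlgebra
  have : FF.IsFnField ℂ (laurentBaseChange ℂ (modularFunctionFieldFull p)) :=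
    modularFieldInputsC.fnField p
  obtain ⟨v, hv⟩ := exists_place_lift ℂ P
  set e := baseChangeEmb Qb ℂ (modularFunctionFieldFull p) with he
  have hej : e (jE Qb p) = jF p := Subtype.ext (by
    rw [he, coe_baseChangeEmb, coe_jE, coeffMap_coeffEmb', Top.coeffEmb_jq]
    rfl)
  have heu : e (uE p) = toFC p (uC p) := Subtype.ext (by
    rw [he, coe_baseChangeEmb, coe_toFC_uC, coe_uE, coeffMap_coeffEmb'])
  have hvj : 0 ≤ v.ord (jF p) := by rw [← hej, hv]; exact hP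
  have h1 : 0 ≤ v.ord (toFC p (uC p)) :=
    FF.ord_nonneg_of_mem v (Red.mem_of_isIntegral v hvj (isIntegral_toFC (uC p)))
  have h2 : 0 ≤ v.ord (toFC p (uCi p)) :=
    FF.ord_nonneg_of_mem v (Red.mem_of_isIntegral v hvj (isIntegral_toFC (uCi p)))
  rw [toFC_uCi, v.ord_inv] at h2
  rw [← hv, heu]
  omega

theorem cuspInf_uE : (cuspInf p).ord (uE p) = 1 - p := by
  rw [ord_cuspInf, order_uE]

theorem cuspZero_uE : (cuspZero p).ord (uE p) = p - 1 := by
  have hp0 : (p : Qb) ^ 12 ≠ 0 := pow_ne_zero _ (by exact_mod_cast hp.out.ne_zero)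
  have h0 : algebraMap Qb (FN Qb p) ((p : Qb) ^ 12) ≠ 0 := (map_ne_zero _).mpr hp0
  rw [ord_cuspZero, fricke_uE, ← ord_cuspInf, Place.ord_mul _ h0 (inv_ne_zero (uE_ne_zero p)),
    FF.ord_algebraMap, Place.ord_inv, cuspInf_uE]
  ring

end Bar

end Fermat.Agent.Cusp
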