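import Fermat.Agent.Cusp.Class
import Fermat.Agent.Top.SupportFinal

/-!
# Hecke operators on the cuspidal class
-/

set_option autoImplicit false
set_option linter.unusedSectionVars false

noncomputable section

open HahnSeries ModularCurve AlgebraicCurve Fermat.Agent.JZ IntermediateField

namespace Fermat.Agent.Cusp

local notation "Qb" => AlgebraicClosure ℚ

section Ratio

/-- the ratio lemma along an embedding -/
theorem ratio_along (m : ℕ) [hm : Fact m.Prime] {F' : Type*} [Field F'] [Algebra Qb F']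
    (φ : FN Qb m →+* F') (hφ : ∀ c : Qb, φ (algebraMap Qb _ c) = algebraMap Qb F' c)
    (W : Place Qb F') (h : W.ord (φ (jE Qb m)) < 0 ∨ W.ord (φ (jEN Qb m)) < 0) :
    W.ord (φ (jE Qb m)) < 0 ∧ W.ord (φ (jEN Qb m)) < 0 ∧
      (W.ord (φ (jEN Qb m)) = m * W.ord (φ (jE Qb m)) ∨
        W.ord (φ (jE Qb m)) = m * W.ord (φ (jEN Qb m))) := by
  rcases Top.exists_restrict φ hφ W with h0 | ⟨w, e, he, hw⟩
  · rw [h0, h0] at h
    omega
  · have h1 : w.ord (jE Qb m) < 0 := by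
      rcases h with h | h
      · rw [hw] at h
        by_contra hcon
        rw [not_lt] at hcon
        have := mul_nonneg hcon he.le
        omega
      · rw [hw] at h
        rw [j_neg_iff]
        by_contra hcon
        rw [not_lt] at hcon
        have := mul_nonneg hcon he.le
        omega
    have h2 := (j_neg_iff m).1 h1
    refine ⟨by rw [hw]; exact mul_neg_of_neg_of_pos h1 he,
      by rw [hw]; exact mul_neg_of_neg_of_pos h2 he, ?_⟩
    rcases ratio m h1 with h3 | h3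
    · left; rw [hw, hw, h3]; ring
    · right; rw [hw, hw, h3]; ring

/-- integer arithmetic at the cusps -/
theorem arith_inf {p l : ℤ} (hp : 2 ≤ p) (hl : 2 ≤ l) (hne : p ≠ l) {a b c d : ℤ} (ha : a < 0)
    (hb : b < 0) (hc : c < 0) (hd : d < 0) (h1 : d = p * c)
    (hA : b = p * a ∨ a = p * b) (hI : c = l * a ∨ a = l * c) (hG : d = l * b ∨ b = l * d) :
    b = p * a := by
  rcases hA with hA | hA
  · exact hA
  exfalso
  have hp2 : p ^ 2 - 1 ≠ 0 := by nlinarith
  have hpl2 : p ^ 2 * l ^ 2 - 1 ≠ 0 := by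
    have : 1 < p * l := by nlinarith
    nlinarith
  have hd2 : p ^ 2 - l ^ 2 ≠ 0 := by
    intro h
    rcases mul_eq_zero.mp (show (p - l) * (p + l) = 0 by linear_combination h) with h' | h'
    · exact hne (by linarith)
    · linarith
  rcases hI with hI | hI <;> rcases hG with hG | hG
  · have : b * (l * (p ^ 2 - 1)) = 0 := by
      subst hA
      subst hI
      linear_combination hG - h1
    rcases mul_eq_zero.mp this with h | h
    · omega
    · rcases mul_eq_zero.mp h with h | h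
      · omega
      · exact hp2 h
  · have : d * (p ^ 2 * l ^ 2 - 1) = 0 := by
      subst hA
      subst hI
      rw [hG] at h1
      linear_combination -h1
    rcases mul_eq_zero.mp this with h | h
    · omega
    · exact hpl2 h
  · have : c * (p ^ 2 - l ^ 2) = 0 := by
      linear_combination p * hG - p * h1 + l * hI - l * hA
    rcases mul_eq_zero.mp this with h | h
    · omega
    · exact hd2 h
  · have : c * (l * (p ^ 2 - 1)) = 0 := by
      rw [h1] at hG
      rw [hG] at hA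
      linear_combination hI - hA
    rcases mul_eq_zero.mp this with h | h
    · omega
    · rcases mul_eq_zero.mp h with h | h
      · omega
      · exact hp2 h

/-- integer arithmetic at the cusps -/
theorem arith_zero {p l : ℤ} (hp : 2 ≤ p) (hl : 2 ≤ l) (hne : p ≠ l) {a b c d : ℤ} (ha : a < 0)
    (hb : b < 0) (hc : c < 0) (hd : d < 0) (h1 : c = p * d)
    (hA : b = p * a ∨ a = p * b) (hI : c = l * a ∨ a = l * c) (hG : d = l * b ∨ b = l * d) :
    a = p * b := arith_inf (a := b) (b := a) (c := d) (d := c) hp hl hne hb ha hd hc h1 hA.symm hG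
      hI

end Ratio

section Level

variable (p : ℕ) [hp : Fact p.Prime] (ℓ : ℕ) [hℓ : Fact ℓ.Prime] [NeZero ℓ]

instance neZero_mul_prime : NeZero (p * ℓ) :=
  ⟨mul_ne_zero hp.out.ne_zero hℓ.out.ne_zero⟩

/-- `q ↦ q ^ p` from level `ℓ` to level `p ℓ` -/
def gammaHom : FN Qb ℓ →ₐ[Qb] FN Qb (p * ℓ) :=
  qexpHom p (A := FN Qb ℓ) (B := FN Qb (p * ℓ)) (fun _ hx =>
    FN_mono (L := Qb) (M := ℓ * p) (M' := p * ℓ) (dvd_of_eq (mul_comm ℓ p)) (qExpand_mem_FN p hx))

/-- the inclusion of level `ℓ` in level `p ℓ` -/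
def iotaHom : FN Qb ℓ →ₐ[Qb] FN Qb (p * ℓ) :=
  IntermediateField.inclusion (FN_mono (L := Qb) (dvd_mul_left ℓ p))

theorem iota_jE : iotaHom p ℓ (jE Qb ℓ) = heckeAlphaBar Qb p ℓ (jE Qb p) := Subtype.ext rfl

theorem iota_jEN : iotaHom p ℓ (jEN Qb ℓ) = heckeBetaBar Qb p ℓ (jE Qb p) := Subtype.ext rfl

theorem gamma_jE : gammaHom p ℓ (jE Qb ℓ) = heckeAlphaBar Qb p ℓ (jEN Qb p) := Subtype.ext rfl

theorem gamma_jEN : gammaHom p ℓ (jEN Qb ℓ) = heckeBetaBar Qb p ℓ (jEN Qb p) := by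
  apply Subtype.ext
  change qExpand Qb p (qExpand Qb ℓ (coeffEmb Qb jq)) = qExpand Qb ℓ (qExpand Qb p (coeffEmb Qb jq))
  rw [qExpand_qExpand, qExpand_qExpand]
  exact qExpand_congr (mul_comm p ℓ) _

variable (W : Place Qb (FN Qb (p * ℓ)))

theorem facts : 
    let a := W.ord (heckeAlphaBar Qb p ℓ (jE Qb p))
    let b := W.ord (heckeAlphaBar Qb p ℓ (jEN Qb p))
    let c := W.ord (heckeBetaBar Qb p ℓ (jE Qb p))
    let d := W.ord (heckeBetaBar Qb p ℓ (jEN Qb p))
    c < 0 → a < 0 ∧ b < 0 ∧ d < 0 ∧ (b = p * a ∨ a = p * b) ∧ (c = ℓ * a ∨ a = ℓ * c) ∧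
      (d = ℓ * b ∨ b = ℓ * d) := by
  intro a b c d hc
  have hB := ratio_along p (heckeBetaBar Qb p ℓ : FN Qb p →+* FN Qb (p * ℓ))
    (fun c => (heckeBetaBar Qb p ℓ).commutes c) W (Or.inl hc)
  have hI := ratio_along ℓ (iotaHom p ℓ : FN Qb ℓ →+* FN Qb (p * ℓ))
    (fun c => (iotaHom p ℓ).commutes c) W (Or.inr (by
      change W.ord (iotaHom p ℓ (jEN Qb ℓ)) < 0
      rw [iota_jEN]
      exact hc))
  change W.ord (iotaHom p ℓ (jE Qb ℓ)) < 0 ∧ W.ord (iotaHom p ℓ (jEN Qb ℓ)) < 0 ∧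
    (W.ord (iotaHom p ℓ (jEN Qb ℓ)) = ℓ * W.ord (iotaHom p ℓ (jE Qb ℓ)) ∨
      W.ord (iotaHom p ℓ (jE Qb ℓ)) = ℓ * W.ord (iotaHom p ℓ (jEN Qb ℓ))) at hI
  rw [iota_jE, iota_jEN] at hI
  have hA := ratio_along p (heckeAlphaBar Qb p ℓ : FN Qb p →+* FN Qb (p * ℓ))
    (fun c => (heckeAlphaBar Qb p ℓ).commutes c) W (Or.inl hI.1)
  have hG := ratio_along ℓ (gammaHom p ℓ : FN Qb ℓ →+* FN Qb (p * ℓ))
    (fun c => (gammaHom p ℓ).commutes c) W (Or.inl (by
      change W.ord (gammaHom p ℓ (jE Qb ℓ)) < 0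
      rw [gamma_jE]
      exact hA.2.1))
  change W.ord (gammaHom p ℓ (jE Qb ℓ)) < 0 ∧ W.ord (gammaHom p ℓ (jEN Qb ℓ)) < 0 ∧
    (W.ord (gammaHom p ℓ (jEN Qb ℓ)) = ℓ * W.ord (gammaHom p ℓ (jE Qb ℓ)) ∨
      W.ord (gammaHom p ℓ (jE Qb ℓ)) = ℓ * W.ord (gammaHom p ℓ (jEN Qb ℓ))) at hG
  rw [gamma_jE, gamma_jEN] at hG
  exact ⟨hI.1, hA.2.1, hB.2.1, hA.2.2, hI.2.2, hG.2.2⟩

variable (hα : HeckeAlphaBarIntegral Qb p ℓ) (hβ : HeckeBetaBarIntegral Qb p ℓ)

theorem ramificationIndexAlong_pos {K F F' : Type*} [Field K] [Field F] [Field F'] [Algebra K F]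
    [Algebra K F'] (φ : F →ₐ[K] F') (hφ : φ.toRingHom.IsIntegral) (W : Place K F') :
    0 < W.ramificationIndexAlong φ := by
  let _ := algebraAlong φ
  have := isScalarTower_along φ
  have := isIntegral_along φ hφ
  exact W.ramificationIndex_pos (F := F)

include hα in
theorem restrict_alpha_inf (hne : p ≠ ℓ) (h : W.restrictAlong _ hβ = cuspInf p) :
    W.restrictAlong _ hα = cuspInf p := by
  have e1 := Place.ord_restrictAlong (heckeBetaBar Qb p ℓ) hβ W (jE Qb p)
  have e2 := Place.ord_restrictAlong (heckeBetaBar Qb p ℓ) hβ W (jEN Qb p)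
  have e3 := Place.ord_restrictAlong (heckeAlphaBar Qb p ℓ) hα W (jE Qb p)
  have e4 := Place.ord_restrictAlong (heckeAlphaBar Qb p ℓ) hα W (jEN Qb p)
  rw [h, cuspInf_j] at e1
  rw [h, cuspInf_jN] at e2
  have hb0 : (0 : ℤ) < W.ramificationIndexAlong (heckeBetaBar Qb p ℓ) := by
    exact_mod_cast ramificationIndexAlong_pos _ hβ W
  have ha0 : (0 : ℤ) < W.ramificationIndexAlong (heckeAlphaBar Qb p ℓ) := by
    exact_mod_cast ramificationIndexAlong_pos _ hα W
  obtain ⟨ha, hb, hd, h1, h2, h3⟩ := facts p ℓ W (by rw [e1]; omega)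
  have h4 := arith_inf (p := p) (l := ℓ) (by exact_mod_cast hp.out.two_le)
    (by exact_mod_cast hℓ.out.two_le) (by exact_mod_cast hne) ha hb (by rw [e1]; omega) hd
    (by rw [e1, e2]; ring) h1 h2 h3
  rw [e3, e4] at h4
  rw [e3] at ha
  apply eq_cuspInf
  · by_contra hcon
    rw [not_lt] at hcon
    have := mul_nonneg ha0.le hcon
    omega
  · apply mul_left_cancel₀ ha0.ne'
    rw [h4]
    ring

include hα in
theorem restrict_alpha_zero (hne : p ≠ ℓ) (h : W.restrictAlong _ hβ = cuspZero p) :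
    W.restrictAlong _ hα = cuspZero p := by
  have e1 := Place.ord_restrictAlong (heckeBetaBar Qb p ℓ) hβ W (jE Qb p)
  have e2 := Place.ord_restrictAlong (heckeBetaBar Qb p ℓ) hβ W (jEN Qb p)
  have e3 := Place.ord_restrictAlong (heckeAlphaBar Qb p ℓ) hα W (jE Qb p)
  have e4 := Place.ord_restrictAlong (heckeAlphaBar Qb p ℓ) hα W (jEN Qb p)
  rw [h, cuspZero_j] at e1
  rw [h, cuspZero_jN] at e2
  have hp0 : (0 : ℤ) < p := by exact_mod_cast hp.out.pos
  have hb0 : (0 : ℤ) < W.ramificationIndexAlong (heckeBetaBar Qb p ℓ) := by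
    exact_mod_cast ramificationIndexAlong_pos _ hβ W
  have ha0 : (0 : ℤ) < W.ramificationIndexAlong (heckeAlphaBar Qb p ℓ) := by
    exact_mod_cast ramificationIndexAlong_pos _ hα W
  have hc : W.ord (heckeBetaBar Qb p ℓ (jE Qb p)) < 0 := by
    rw [e1, mul_neg]
    have := mul_pos hb0 hp0
    omega
  obtain ⟨ha, hb, hd, h1, h2, h3⟩ := facts p ℓ W hc
  have h4 := arith_zero (p := p) (l := ℓ) (by exact_mod_cast hp.out.two_le)
    (by exact_mod_cast hℓ.out.two_le) (by exact_mod_cast hne) ha hb hc hd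
    (by rw [e1, e2]; ring) h1 h2 h3
  rw [e3, e4] at h4
  rw [e3] at ha
  apply eq_cuspZero
  · by_contra hcon
    rw [not_lt] at hcon
    have := mul_nonneg ha0.le hcon
    omega
  · apply mul_left_cancel₀ ha0.ne'
    rw [h4]
    ring

end Level

section Corr

variable {K F F' : Type*} [Field K] [Field F] [Field F'] [Algebra K F] [Algebra K F']
  [HasPrincipalDivisors K F'] (φ ψ : F →ₐ[K] F') (hφ : φ.toRingHom.IsIntegral)
  (hψ : ψ.toRingHom.IsIntegral)

/-- A correspondence all of whose branches at `P` come back to `P`. -/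
theorem correspondence_single (hFI : FundamentalIdentityAlong K φ hφ) (P : Place K F)
    (hdeg : P.deg = 1) (h : ∀ W : Place K F', W.restrictAlong φ hφ = P →
      W.restrictAlong ψ hψ = P) :
    Divisor.correspondence φ ψ hφ hψ (Finsupp.single P 1) =
      Finsupp.single P ((finrankAlong K φ : ℕ) : ℤ) := by
  have h1 : Divisor.correspondence φ ψ hφ hψ (Finsupp.single P 1) =
      Finsupp.single P (∑ W ∈ Place.fiberAlong φ hφ P,
        (1 * (W.ramificationIndexAlong φ : ℤ) * W.inertiaDegAlong ψ hψ)) := by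
    rw [Divisor.correspondence_apply, Divisor.pullbackAlong_single, map_sum,
      Finsupp.single_finsetSum]
    refine Finset.sum_congr rfl fun W hW => ?_
    rw [Divisor.pushforwardAlong_single, h W (Place.mem_fiberAlong.mp hW)]
  have h2 := Divisor.degree_correspondence φ ψ hφ hψ hFI (Finsupp.single P 1)
  rw [h1, Divisor.degree_single, Divisor.degree_single, hdeg] at h2
  rw [h1]
  congr 1
  simpa using h2

theorem finrankAlong_comp_equiv {K F F' : Type*} [Field K] [Field F] [Field F'] [Algebra K F]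
    [Algebra K F'] {F'' : Type*} [Field F''] [Algebra K F''] (φ : F →ₐ[K] F')
    (e : F' ≃ₐ[K] F'') (ψ : F →ₐ[K] F'') (h : ∀ x, ψ x = e (φ x)) :
    finrankAlong K ψ = finrankAlong K φ := by
  symm
  let a1 := algebraAlong φ
  let a2 := algebraAlong ψ
  refine Algebra.finrank_eq_of_equiv_equiv (RingEquiv.refl F) e.toRingEquiv ?_
  ext x
  exact h x

end Corr

section Main

variable (p : ℕ) [hp : Fact p.Prime] (ℓ : ℕ) [hℓ : Fact ℓ.Prime] [NeZero ℓ]

theorem not_dvd_of_ne (hne : p ≠ ℓ) : ¬ ℓ ∣ p := fun h =>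
  hne ((Nat.prime_dvd_prime_iff_eq hℓ.out hp.out).mp h).symm

theorem finrankAlong_beta (hne : p ≠ ℓ) : finrankAlong Qb (heckeBetaBar Qb p ℓ) = ℓ + 1 := by
  have : Algebra.IsAlgebraic ℚ Qb := AlgebraicClosure.isAlgebraic ℚ
  let _ : Algebra Qb ℂ := (IsAlgClosed.lift (R := ℚ) (S := Qb) (M := ℂ)).toRingHom.toAlgebra
  obtain ⟨w, hw1, hw2⟩ := ESh.exists_atkinLehner Qb p ℓ hℓ.out (not_dvd_of_ne p ℓ hne)
  have hinv : w.comp w = AlgHom.id Qb (FN Qb (p * ℓ)) := by
    have h := ringHom_ext modularFieldInputsBar (M := p * ℓ) (w.comp w).toRingHom (RingHom.id _)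
      (fun a => by
        change w (w (algebraMap Qb _ a)) = _
        rw [w.commutes, w.commutes]
        rfl)
      (by
        change w (w (jE Qb (p * ℓ))) = jE Qb (p * ℓ)
        have e1 : jE Qb (p * ℓ) = heckeAlphaBar Qb p ℓ (jE Qb p) := Subtype.ext rfl
        rw [e1, hw1, hw2])
      (by
        change w (w (jEN Qb (p * ℓ))) = jEN Qb (p * ℓ)
        have e1 : jEN Qb (p * ℓ) = heckeBetaBar Qb p ℓ (jEN Qb p) := by
          apply Subtype.ext
          change qExpand Qb (p * ℓ) (coeffEmb Qb jq) =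
            qExpand Qb ℓ (qExpand Qb p (coeffEmb Qb jq))
          rw [qExpand_qExpand]
          exact qExpand_congr (mul_comm p ℓ) _
        rw [e1, hw2, hw1])
    exact AlgHom.ext fun x => RingHom.congr_fun h x
  rw [finrankAlong_comp_equiv (heckeAlphaBar Qb p ℓ) (AlgEquiv.ofAlgHom w w hinv hinv)
    (heckeBetaBar Qb p ℓ) (fun x => (hw1 x).symm),
    Top.finrankAlong_heckeAlphaBar modularFieldInputsBar p ℓ hℓ.out (not_dvd_of_ne p ℓ hne)]

/-- The Hecke correspondence on the cuspidal divisor. -/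
theorem correspondence_cuspDiv (hne : p ≠ ℓ) [HasPrincipalDivisors Qb (FN Qb (p * ℓ))]
    (hα : HeckeAlphaBarIntegral Qb p ℓ) (hβ : HeckeBetaBarIntegral Qb p ℓ)
    (hFI : FundamentalIdentityAlong Qb (heckeBetaBar Qb p ℓ) hβ) :
    Divisor.correspondence (heckeBetaBar Qb p ℓ) (heckeAlphaBar Qb p ℓ) hβ hα (cuspDiv p) =
      (1 + ℓ) • cuspDiv p := by
  rw [cuspDiv, map_sub,
    correspondence_single _ _ hβ hα hFI (cuspZero p) (FF.deg_eq_one _)
      (fun W hW => restrict_alpha_zero p ℓ W hα hβ hne hW),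
    correspondence_single _ _ hβ hα hFI (cuspInf p) (FF.deg_eq_one _)
      (fun W hW => restrict_alpha_inf p ℓ W hα hβ hne hW), finrankAlong_beta p ℓ hne, smul_sub,
    Finsupp.smul_single, Finsupp.smul_single, nsmul_eq_mul, mul_one, add_comm 1 ℓ]

/-- **Eichler-Shimura eigenvalue**: `T_ℓ` acts on the cuspidal class by `1 + ℓ`. -/
theorem heckeOperatorAlong_cuspClass (hne : p ≠ ℓ) :
    heckeOperatorAlong Qb p ℓ (cuspClass p) = (1 + ℓ) • cuspClass p := by
  obtain ⟨hα, hβ, hP, hfin, hFI, hN⟩ :=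
    heckeInputsAlong modularFieldInputsBar (FF.normInputs Qb) p ℓ
  rw [heckeOperatorAlong_eq hα hβ hFI hfin hN]
  have h : Pic0.degZeroCorrespondence (heckeBetaBar Qb p ℓ) (heckeAlphaBar Qb p ℓ) hβ hα hFI
      (cuspDiv₀ p) = (1 + ℓ) • cuspDiv₀ p :=
    Subtype.ext (correspondence_cuspDiv p ℓ hne hα hβ hFI)
  exact congrArg Pic0.mk h

end Main

section Bar

variable (p : ℕ) [hp : Fact p.Prime]

/-- **`T_ℓ c = (1 + ℓ) c`** for every prime `ℓ ≠ p`. -/
theorem heckeOperatorBar_cuspClass (ℓ : Nat.Primes) (hne : (ℓ : ℕ) ≠ p) :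
    heckeOperatorBar p ℓ (cuspClass p) = (1 + (ℓ : ℕ)) • cuspClass p := by
  have : NeZero (ℓ : ℕ) := ⟨ℓ.2.ne_zero⟩
  have : Fact (ℓ : ℕ).Prime := ⟨ℓ.2⟩
  exact heckeOperatorAlong_cuspClass p ℓ hne.symm

end Bar

end Fermat.Agent.Cusp
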