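import Fermat.Agent.Cusp.Class
import Fermat.Agent.Top.DescentKummer
import Mathlib.FieldTheory.Galois.Infinite

/-!
# The order of the cuspidal class
-/

set_option autoImplicit false
set_option linter.unusedSectionVars false

noncomputable section

open HahnSeries ModularCurve AlgebraicCurve Fermat.Agent.JZ IntermediateField

namespace Fermat.Agent.Cusp

local notation "Qb" => AlgebraicClosure ℚ

variable (p : ℕ) [hp : Fact p.Prime]

/-- leading coefficient of the `q`-expansion -/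
def lc : FN Qb p →*₀ Qb where
  toFun x := (x : LaurentSeries Qb).leadingCoeff
  map_zero' := by
    rw [ZeroMemClass.coe_zero, HahnSeries.leadingCoeff_zero]
  map_one' := by
    rw [OneMemClass.coe_one, HahnSeries.leadingCoeff_one]
  map_mul' x y := by
    rw [MulMemClass.coe_mul, HahnSeries.leadingCoeff_mul]

theorem lc_apply (x : FN Qb p) : lc p x = (x : LaurentSeries Qb).leadingCoeff := rfl

theorem lc_algebraMap (a : Qb) : lc p (algebraMap Qb _ a) = a := by
  rw [lc_apply]
  change (algebraMap Qb (LaurentSeries Qb) a).leadingCoeff = a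
  rw [algebraMap_laurentSeries_eq_single, HahnSeries.leadingCoeff_of_single]

theorem lc_ne_zero {x : FN Qb p} (hx : x ≠ 0) : lc p x ≠ 0 := (map_ne_zero (lc p)).mpr hx

theorem lc_smul (σ : Qb ≃ₐ[ℚ] Qb) (x : FN Qb p) :
    lc p (arithmeticGalois (modularFunctionFieldFull p) σ • x) = σ (lc p x) := by
  rw [lc_apply, lc_apply, coe_arithmeticGalois_smul, Top.leadingCoeff_coeffMap]
  rfl

theorem lc_uE : lc p (uE p) = 1 := by
  rw [lc_apply, HahnSeries.leadingCoeff_eq, order_uE, uE_coeff]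

theorem eq_of_ord_eq {f g : FN Qb p} (hf : f ≠ 0) (hg : g ≠ 0)
    (h : ∀ v : Place Qb (FN Qb p), v.ord f = v.ord g) (h1 : lc p f = lc p g) : f = g := by
  have h3 : ∀ v : Place Qb (FN Qb p), 0 ≤ v.ord (f / g) := by
    intro v
    rw [div_eq_mul_inv, v.ord_mul hf (inv_ne_zero hg), v.ord_inv, h]
    omega
  obtain ⟨a, ha⟩ := RR.exists_algebraMap_eq_of_forall_ord_nonneg h3
  have h4 : f = algebraMap Qb _ a * g := by rw [ha, div_mul_cancel₀ _ hg]
  have h5 := congrArg (lc p) h4
  rw [map_mul, lc_algebraMap, h1] at h5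
  have h6 : a = 1 := by
    have := lc_ne_zero p hg
    exact (mul_eq_right₀ this).mp h5.symm
  rw [h4, h6, map_one, one_mul]

theorem smul_uE (σ : Qb ≃ₐ[ℚ] Qb) :
    arithmeticGalois (modularFunctionFieldFull p) σ • uE p = uE p :=
  Subtype.ext (by rw [coe_arithmeticGalois_smul, coe_uE, coeffMap_coeffEmb])

theorem smul_algebraMap' (σ : Qb ≃ₐ[ℚ] Qb) (a : Qb) :
    arithmeticGalois (modularFunctionFieldFull p) σ • algebraMap Qb (FN Qb p) a =
      algebraMap Qb (FN Qb p) (σ a) := arithmeticRingAut_algebraMap _ σ a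

/-- the action of the Galois group on coefficients, as a ring homomorphism -/
def galHom (σ : Qb ≃ₐ[ℚ] Qb) : FN Qb p →+* FN Qb p :=
  (arithmeticRingAut (modularFunctionFieldFull p) σ).toRingHom

theorem galHom_apply (σ : Qb ≃ₐ[ℚ] Qb) (x : FN Qb p) :
    galHom p σ x = arithmeticGalois (modularFunctionFieldFull p) σ • x := rfl

theorem galHom_comp_fricke (σ : Qb ≃ₐ[ℚ] Qb) :
    (galHom p σ).comp (fricke p).toRingEquiv.toRingHom =
      (fricke p).toRingEquiv.toRingHom.comp (galHom p σ) := by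
  refine ringHom_ext modularFieldInputsBar _ _ (fun a => ?_) ?_ ?_
  · change galHom p σ (fricke p (algebraMap Qb _ a)) = fricke p (galHom p σ (algebraMap Qb _ a))
    rw [AlgEquiv.commutes, galHom_apply, smul_algebraMap', AlgEquiv.commutes]
  · change galHom p σ (fricke p (jE Qb p)) = fricke p (galHom p σ (jE Qb p))
    rw [galHom_apply, galHom_apply, galois_smul_jE, fricke_j, galois_smul_jEN]
  · change galHom p σ (fricke p (jEN Qb p)) = fricke p (galHom p σ (jEN Qb p))
    rw [galHom_apply, galHom_apply, galois_smul_jEN, fricke_jN, galois_smul_jE]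

/-- the Fricke involution commutes with the Galois action on coefficients -/
theorem smul_fricke (σ : Qb ≃ₐ[ℚ] Qb) (x : FN Qb p) :
    arithmeticGalois (modularFunctionFieldFull p) σ • fricke p x =
      fricke p (arithmeticGalois (modularFunctionFieldFull p) σ • x) := by
  have h := RingHom.congr_fun (galHom_comp_fricke p σ) x
  exact h

theorem addOrderOf_pos : 0 < addOrderOf (cuspClass p) := by
  rw [addOrderOf_pos_iff, isOfFinAddOrder_iff_nsmul_eq_zero]
  exact ⟨p - 1, by have := hp.out.one_lt; omega, pred_smul_cuspClass p⟩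

theorem addOrderOf_dvd_pred : addOrderOf (cuspClass p) ∣ p - 1 :=
  addOrderOf_dvd_of_nsmul_eq_zero (pred_smul_cuspClass p)

/-- If `m` kills the cuspidal class and `p - 1 = m k`, the modular unit is a `k`-th power. -/
theorem exists_root {m k : ℕ} (hm : m • cuspClass p = 0) (hk : p - 1 = m * k) :
    ∃ f : FN Qb p, f ≠ 0 ∧ lc p f = 1 ∧ f ^ k = uE p ∧ ∀ v : Place Qb (FN Qb p),
      v.ord f = m * cuspDiv p v := by
  rw [nsmul_cuspClass_eq_zero_iff] at hm
  obtain ⟨g, hg0, hg⟩ := hm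
  have hl := lc_ne_zero p hg0
  have hl' : algebraMap Qb (FN Qb p) (lc p g)⁻¹ ≠ 0 := (map_ne_zero _).mpr (inv_ne_zero hl)
  have hp1 : ((p : ℤ) - 1) = m * k := by
    have := hp.out.one_le
    have h : ((p - 1 : ℕ) : ℤ) = (m * k : ℕ) := by rw [hk]
    push_cast [Nat.cast_sub this] at h
    exact h
  have hf0 : algebraMap Qb (FN Qb p) (lc p g)⁻¹ * g ≠ 0 := mul_ne_zero hl' hg0
  have hord : ∀ v : Place Qb (FN Qb p),
      v.ord (algebraMap Qb (FN Qb p) (lc p g)⁻¹ * g) = m * cuspDiv p v := by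
    intro v
    rw [v.ord_mul hl' hg0, FF.ord_algebraMap, zero_add, ← hg, Finsupp.smul_apply, nsmul_eq_mul]
  have hlc : lc p (algebraMap Qb (FN Qb p) (lc p g)⁻¹ * g) = 1 := by
    rw [map_mul, lc_algebraMap, inv_mul_cancel₀ hl]
  refine ⟨algebraMap Qb _ (lc p g)⁻¹ * g, hf0, hlc, ?_, hord⟩
  apply eq_of_ord_eq p (pow_ne_zero _ hf0) (uE_ne_zero p)
  · intro v
    rw [FF.ord_pow, hord, ord_uE, hp1]
    ring
  · rw [map_pow, hlc, one_pow, lc_uE]

theorem smul_eq_of_root {m : ℕ} {f : FN Qb p} (hf0 : f ≠ 0) (hlc : lc p f = 1)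
    (hord : ∀ v : Place Qb (FN Qb p), v.ord f = m * cuspDiv p v) (σ : Qb ≃ₐ[ℚ] Qb) :
    arithmeticGalois (modularFunctionFieldFull p) σ • f = f := by
  apply eq_of_ord_eq p (by simpa using hf0) hf0
  · intro v
    have h1 := SemilinearAut.ord_smul (arithmeticGalois (modularFunctionFieldFull p) σ)
      ((arithmeticGalois (modularFunctionFieldFull p) σ)⁻¹ • v) f
    rw [smul_inv_smul] at h1
    rw [h1, hord, hord, ← SemilinearAut.divisor_smul_apply, galois_smul_cuspDiv]
  · rw [lc_smul, hlc, map_one]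

theorem rat_pow_eq {q : ℚ} {k : ℕ} (hk : 0 < k) (h : q ^ k = (p : ℚ) ^ 12) : k ∣ 12 := by
  have h0 : q ≠ 0 := by
    rintro rfl
    rw [zero_pow hk.ne'] at h
    exact pow_ne_zero 12 (by exact_mod_cast hp.out.ne_zero) h.symm
  have h1 := congrArg (padicValRat p) h
  rw [padicValRat.pow, padicValRat.pow, padicValRat.self hp.out.one_lt, mul_one] at h1
  have h2 : (k : ℤ) ∣ ((12 : ℕ) : ℤ) := ⟨_, h1.symm⟩
  exact_mod_cast h2

/-- If `m` kills the cuspidal class and `p - 1 = m k` then `k ∣ 12`. -/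
theorem dvd_twelve {m k : ℕ} (hm : m • cuspClass p = 0) (hk : p - 1 = m * k) : k ∣ 12 := by
  obtain ⟨f, hf0, hlc, hfk, hord⟩ := exists_root p hm hk
  have hk0 : 0 < k := by
    rcases Nat.eq_zero_or_pos k with h | h
    · subst h
      have := hp.out.one_lt
      omega
    · exact h
  have hfix : ∀ σ : Qb ≃ₐ[ℚ] Qb, σ (lc p (fricke p f)) = lc p (fricke p f) := by
    intro σ
    rw [← lc_smul, smul_fricke, smul_eq_of_root p hf0 hlc hord]
  obtain ⟨q, hq⟩ := (InfiniteGalois.mem_range_algebraMap_iff_fixed (k := ℚ) _).2 hfix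
  have h1 : (lc p (fricke p f)) ^ k = (p : Qb) ^ 12 := by
    rw [← map_pow, ← map_pow, hfk, fricke_uE, map_mul, lc_algebraMap, map_inv₀, lc_uE, inv_one,
      mul_one]
  rw [← hq, ← map_pow] at h1
  have h2 : q ^ k = (p : ℚ) ^ 12 := by
    apply (algebraMap ℚ Qb).injective
    rw [h1, map_pow, map_natCast]
  exact rat_pow_eq p hk0 h2

/-- **The order of the cuspidal class is divisible by the Eisenstein numerator.** -/
theorem eisensteinNumerator_dvd_addOrderOf :
    eisensteinNumerator p ∣ addOrderOf (cuspClass p) := by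
  obtain ⟨k, hk⟩ := addOrderOf_dvd_pred p
  have h12 := dvd_twelve p (addOrderOf_nsmul_eq_zero _) hk
  have hg : k ∣ Nat.gcd (p - 1) 12 := Nat.dvd_gcd ⟨_, by rw [hk, mul_comm]⟩ h12
  have hg0 : 0 < Nat.gcd (p - 1) 12 := Nat.gcd_pos_of_pos_right _ (by norm_num)
  obtain ⟨t, ht⟩ := hg
  have hk0 : 0 < k := by
    rcases Nat.eq_zero_or_pos k with h | h
    · rw [h, zero_mul] at ht
      omega
    · exact h
  refine ⟨t, ?_⟩
  rw [eisensteinNumerator]
  have h1 : (p - 1) / Nat.gcd (p - 1) 12 * Nat.gcd (p - 1) 12 = p - 1 :=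
    Nat.div_mul_cancel (Nat.gcd_dvd_left _ _)
  set n := (p - 1) / Nat.gcd (p - 1) 12 with hn
  rw [ht] at h1
  have h2 : n * t * k = addOrderOf (cuspClass p) * k := by
    rw [← hk, ← h1]
    ring
  exact (Nat.eq_of_mul_eq_mul_right hk0 h2).symm

theorem prime_dvd_addOrderOf {r : ℕ} (hr : r ∣ eisensteinNumerator p) :
    r ∣ addOrderOf (cuspClass p) := hr.trans (eisensteinNumerator_dvd_addOrderOf p)

end Fermat.Agent.Cusp
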