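import Fermat.Agent.ESh.AtkinLehner
import Fermat.Agent.JZ.FieldInputs
import Fermat.Agent.Top.PlaceMake

/-!
# The cusps `∞` and `0` of `X₀(p)` as places of its function field
-/

set_option autoImplicit false
set_option linter.unusedSectionVars false

noncomputable section

open HahnSeries ModularCurve AlgebraicCurve Fermat.Agent.JZ

namespace Fermat.Agent.Cusp

section Inf

variable {K : Type*} [Field K] (E : IntermediateField K (LaurentSeries K))

theorem order_nonneg_add {x y : LaurentSeries K} (hx : 0 ≤ x.order) (hy : 0 ≤ y.order) :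
    0 ≤ (x + y).order := by
  by_cases h : x + y = 0
  · rw [h, HahnSeries.order_zero]
  · exact (le_min hx hy).trans (HahnSeries.min_order_le_order_add h)

theorem order_nonneg_mul {x y : LaurentSeries K} (hx : 0 ≤ x.order) (hy : 0 ≤ y.order) :
    0 ≤ (x * y).order := by
  by_cases hx0 : x = 0
  · rw [hx0, zero_mul, HahnSeries.order_zero]
  by_cases hy0 : y = 0
  · rw [hy0, mul_zero, HahnSeries.order_zero]
  rw [HahnSeries.order_mul hx0 hy0]
  exact add_nonneg hx hy

theorem order_inv' (x : LaurentSeries K) : (x⁻¹).order = -x.order := by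
  by_cases hx0 : x = 0
  · rw [hx0, inv_zero, HahnSeries.order_zero, neg_zero]
  have h := HahnSeries.order_mul hx0 (inv_ne_zero hx0)
  rw [mul_inv_cancel₀ hx0, HahnSeries.order_one] at h
  omega

theorem order_algebraMap' (a : K) : (algebraMap K (LaurentSeries K) a).order = 0 := by
  rw [algebraMap_laurentSeries_eq_single]
  by_cases ha : a = 0
  · rw [ha, map_zero, HahnSeries.order_zero]
  · exact HahnSeries.order_single ha

/-- series in `E` without pole. -/
def infRing : ValuationSubring E where
  carrier := {x | 0 ≤ (x : LaurentSeries K).order}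
  mul_mem' := fun {x y} hx hy => order_nonneg_mul hx hy
  one_mem' := by
    change 0 ≤ ((1 : E) : LaurentSeries K).order
    rw [OneMemClass.coe_one, HahnSeries.order_one]
  add_mem' := fun {x y} hx hy => order_nonneg_add hx hy
  zero_mem' := by
    change 0 ≤ ((0 : E) : LaurentSeries K).order
    rw [ZeroMemClass.coe_zero, HahnSeries.order_zero]
  neg_mem' := fun {x} hx => by
    change 0 ≤ ((-x : E) : LaurentSeries K).order
    rw [NegMemClass.coe_neg, HahnSeries.order_neg]
    exact hx
  mem_or_inv_mem' := fun x => by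
    change 0 ≤ (x : LaurentSeries K).order ∨ 0 ≤ ((x⁻¹ : E) : LaurentSeries K).order
    have h : ((x⁻¹ : E) : LaurentSeries K) = (x : LaurentSeries K)⁻¹ := rfl
    rw [h, order_inv']
    omega

theorem mem_infRing {x : E} : x ∈ infRing E ↔ 0 ≤ (x : LaurentSeries K).order := Iff.rfl

variable (hE : ∃ x : E, (x : LaurentSeries K).order = -1)

/-- the place at `∞` -/
def placeInf : Place K E :=
  Top.mkPlace (infRing E) (fun x => (x : LaurentSeries K).order)
    (fun a => by
      rw [mem_infRing]
      exact (order_algebraMap' a).ge)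
    (fun h => by
      obtain ⟨x, hx⟩ := hE
      have h1 : x ∈ infRing E := by rw [h]; trivial
      rw [mem_infRing, hx] at h1
      norm_num at h1)
    (fun _ _ => Iff.rfl)
    (fun x y hx hy => HahnSeries.order_mul (fun h => hx (Subtype.ext h))
      (fun h => hy (Subtype.ext h)))

theorem ord_placeInf (x : E) : (placeInf E hE).ord x = (x : LaurentSeries K).order := by
  by_cases hx : x = 0
  · rw [hx, Place.ord_zero, ZeroMemClass.coe_zero, HahnSeries.order_zero]
  obtain ⟨t, ht0, ht⟩ := FF.exists_ord_eq_one (placeInf E hE)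
  have h1 : ∀ y : E, y ≠ 0 → (y : LaurentSeries K).order =
      (placeInf E hE).ord y * (t : LaurentSeries K).order := fun y hy =>
    Top.ord_eq_mul_of_mem_iff (placeInf E hE) (fun x => (x : LaurentSeries K).order)
      (fun _ _ => Iff.rfl) (fun x y hx hy => HahnSeries.order_mul (fun h => hx (Subtype.ext h))
      (fun h => hy (Subtype.ext h))) ht hy
  obtain ⟨z, hz⟩ := hE
  have hz0 : z ≠ 0 := by
    rintro rfl
    rw [ZeroMemClass.coe_zero, HahnSeries.order_zero] at hz
    norm_num at hz
  have h2 := h1 z hz0
  rw [hz] at h2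
  have h3 : 0 ≤ (t : LaurentSeries K).order := by
    have : t ∈ (placeInf E ⟨z, hz⟩).toValuationSubring :=
      FF.mem_of_ord_nonneg _ (by rw [ht]; norm_num)
    exact this
  have h4 : (t : LaurentSeries K).order = 1 := by
    have h5 : (t : LaurentSeries K).order ∣ 1 := by
      rw [← Int.dvd_neg]
      exact Dvd.intro_left _ h2.symm
    exact Int.eq_one_of_dvd_one h3 h5
  rw [h1 x hx, h4, mul_one]

end Inf

end Fermat.Agent.Cusp
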