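import Fermat.Agent.Top.FnC
import Fermat.Agent.Eis.Gamma0p
import Fermat.Prelude.Def_ModularCurve_ModularUnit

/-!
# The modular unit `Δ(τ)/Δ(pτ)`
-/

set_option autoImplicit false
set_option linter.unusedSectionVars false

noncomputable section

open UpperHalfPlane hiding I
open HahnSeries ModularCurve ModularForm CongruenceSubgroup
open Fermat.Agent.ModFn Fermat.Agent.Top
open scoped MatrixGroups ModularForm

namespace Fermat.Agent.Cusp

/-- `τ ↦ pτ` -/
def sc (p : ℕ) (τ : ℍ) : ℍ := act !![(p : ℤ), 0; 0, 1] τ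

/-- `τ ↦ τ/p` -/
def scD (p : ℕ) (τ : ℍ) : ℍ := act !![(1 : ℤ), 0; 0, p] τ

/-- `τ ↦ -1/(pτ)` -/
def frk (p : ℕ) (τ : ℍ) : ℍ := ModularGroup.S • sc p τ

section

variable (p : ℕ) [NeZero p]

theorem coe_sc (τ : ℍ) : ((sc p τ : ℍ) : ℂ) = p * τ := coe_act_diag p τ

theorem coe_scD (τ : ℍ) : ((scD p τ : ℍ) : ℂ) = τ / p := by
  have := coe_act_upper 1 p 0 τ
  simpa [scD] using this

theorem coe_frk (τ : ℍ) : ((frk p τ : ℍ) : ℂ) = -1 / (p * τ) := by
  rw [frk, Eis.coe_S_smul, coe_sc]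
  rw [neg_div, one_div, inv_neg]

theorem frk_frk (τ : ℍ) : frk p (frk p τ) = τ := by
  have hp : (p : ℂ) ≠ 0 := by exact_mod_cast NeZero.ne p
  have hτ : (τ : ℂ) ≠ 0 := ne_zero τ
  apply UpperHalfPlane.ext
  rw [coe_frk, coe_frk]
  field_simp

theorem discriminant_S (τ : ℍ) : discriminant (ModularGroup.S • τ) = (τ : ℂ) ^ 12 * discriminant τ := by
  rw [discriminant_smul, ModularGroup.denom_S]
  norm_cast

/-- the modular unit -/
def Uf : ℍ → ℂ := fun τ => discriminant τ / discriminant (sc p τ)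

theorem Uf_ne_zero (τ : ℍ) : Uf p τ ≠ 0 :=
  div_ne_zero (discriminant_ne_zero _) (discriminant_ne_zero _)

theorem Uf_smul (γ : SL(2, ℤ)) (hγ : γ ∈ Gamma0 p) (τ : ℍ) : Uf p (γ • τ) = Uf p τ := by
  obtain ⟨c, hc⟩ := (Eis.mem_Gamma0_iff γ).mp hγ
  have hdet : γ 0 0 * γ 1 1 - γ 0 1 * γ 1 0 = 1 := by
    have := γ.det_coe
    rwa [Matrix.det_fin_two] at this
  set γ' : SL(2, ℤ) := ⟨!![γ 0 0, p * γ 0 1; c, γ 1 1], by
    rw [Matrix.det_fin_two_of]
    rw [hc] at hdet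
    linear_combination hdet⟩ with hγ'
  have hd : denom γ τ ≠ 0 := denom_ne_zero _ _
  have h1 : sc p (γ • τ) = γ' • sc p τ := by
    have e : (!![(p : ℤ), 0; 0, 1] : Matrix (Fin 2) (Fin 2) ℤ) * (γ : Matrix (Fin 2) (Fin 2) ℤ) =
        (γ' : Matrix (Fin 2) (Fin 2) ℤ) * !![(p : ℤ), 0; 0, 1] := by
      rw [hγ']
      ext i j
      fin_cases i <;> fin_cases j <;>
        simp [Matrix.mul_apply, Fin.sum_univ_two, hc]
      · ring
      · ring
    have hdp : (!![(p : ℤ), 0; 0, 1] : Matrix (Fin 2) (Fin 2) ℤ).det ≠ 0 := by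
      rw [det_diag]
      exact_mod_cast NeZero.ne p
    rw [sc, sc, ← act_mul_coe _ hdp, e, act_coe_mul _ _ hdp]
  have h2 : denom γ' (sc p τ) = denom γ τ := by
    rw [ModularGroup.denom_apply, ModularGroup.denom_apply, coe_sc, hc]
    have e10 : γ' 1 0 = c := rfl
    have e11 : γ' 1 1 = γ 1 1 := rfl
    rw [e10, e11]
    push_cast
    ring
  rw [Uf, Uf, h1, discriminant_smul, discriminant_smul, h2,
    mul_div_mul_left _ _ (zpow_ne_zero _ hd)]

theorem Uf_S (τ : ℍ) : Uf p (ModularGroup.S • τ) =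
    (p : ℂ) ^ 12 * (discriminant τ / discriminant (scD p τ)) := by
  have hp : (p : ℂ) ≠ 0 := by exact_mod_cast NeZero.ne p
  have hτ : (τ : ℂ) ≠ 0 := ne_zero τ
  have h1 : sc p (ModularGroup.S • τ) = ModularGroup.S • scD p τ := by
    apply UpperHalfPlane.ext
    rw [coe_sc, Eis.coe_S_smul, Eis.coe_S_smul, coe_scD]
    field_simp
  have h0 := discriminant_ne_zero (scD p τ)
  rw [Uf, h1, discriminant_S, discriminant_S, coe_scD]
  field_simp

theorem Uf_frk (τ : ℍ) : Uf p (frk p τ) = (p : ℂ) ^ 12 / Uf p τ := by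
  have h1 : scD p (sc p τ) = τ := by
    have hp : (p : ℂ) ≠ 0 := by exact_mod_cast NeZero.ne p
    apply UpperHalfPlane.ext
    rw [coe_scD, coe_sc]
    field_simp
  have h0 := discriminant_ne_zero τ
  have h2 := discriminant_ne_zero (sc p τ)
  rw [frk, Uf_S, h1, Uf]
  field_simp

theorem coeffMap_ofPS' {R S : Type*} [CommRing R] [CommRing S] (f : R →+* S) (a : PowerSeries ℤ) :
    coeffMap f (HahnSeries.ofPowerSeries ℤ R (a.map (Int.castRingHom R))) =
      HahnSeries.ofPowerSeries ℤ S (a.map (Int.castRingHom S)) := by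
  ext k
  rw [coeffMap_coeff]
  rcases lt_or_ge k 0 with hk | hk
  · rw [ofPowerSeries_coeff_of_neg _ hk, ofPowerSeries_coeff_of_neg _ hk, map_zero]
  · obtain ⟨n, rfl⟩ := Int.eq_ofNat_of_zero_le hk
    rw [HahnSeries.ofPowerSeries_apply_coeff, HahnSeries.ofPowerSeries_apply_coeff,
      PowerSeries.coeff_map, PowerSeries.coeff_map]
    simp

theorem hasExp_discriminant' : HasExp 1 discriminant (coeffEmb ℂ deltaSeries) := by
  refine hasExp_discriminant.congr rfl ?_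
  rw [deltaSeries, dedekindEtaUnitQ, map_mul, coeffEmb, coeffMap_single, RingHom.map_one (algebraMap ℚ ℂ),
    coeffMap_ofPS']

theorem hasExp_Uf : HasExp 1 (Uf p) (coeffEmb ℂ (modularUnitSeries p)) := by
  have h1 : HasExp 1 (fun τ => discriminant (sc p τ)) (coeffEmb ℂ (deltaSeriesN p)) := by
    have h := hasExp_discriminant'.affine (a := p) (d := 1) 0 (sc p)
      (fun τ => by rw [coe_sc]; simp) (fun _ => rfl)
    refine h.congr rfl ?_
    rw [zpow_zero, twist_one, deltaSeriesN, coeffEmb, ModFn.coeffMap_qExpand]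
  have h2 := hasExp_discriminant'.mul (h1.inv fun τ => discriminant_ne_zero _)
  refine h2.congr ?_ ?_
  · funext τ
    rw [Pi.mul_apply, Pi.inv_apply, Uf, div_eq_mul_inv]
  · rw [modularUnitSeries, map_mul, map_inv₀]

theorem exists_hasExp_div (j : ℤ) : ∃ φ, HasExp p
    (fun z => Uf p (ModularGroup.S • ((j : ℝ) +ᵥ z))) φ := by
  have h1 : HasExp 1 (fun z : ℍ => discriminant ((j : ℝ) +ᵥ z)) _ :=
    hasExp_discriminant'.translate j (fun _ => rfl)
  have h2 : HasExp (1 * p) (fun z : ℍ => discriminant ((j : ℝ) +ᵥ z)) _ := h1.qExpand (m := p)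
  have h3 : HasExp (1 * p) (fun z : ℍ => discriminant (scD p ((j : ℝ) +ᵥ z))) _ :=
    hasExp_discriminant'.affine (a := 1) (d := p) j (fun z => scD p ((j : ℝ) +ᵥ z))
      (fun τ => by rw [coe_scD, UpperHalfPlane.coe_vadd]; push_cast; ring) (fun _ => rfl)
  have h4 := (h2.mul (h3.inv fun τ => discriminant_ne_zero _)).smul ((p : ℂ) ^ 12)
  rw [one_mul] at h4
  refine ⟨_, h4.congr ?_ rfl⟩
  funext z
  rw [Uf_S, Pi.smul_apply, Pi.mul_apply, Pi.inv_apply, smul_eq_mul, div_eq_mul_inv]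

end

section

variable (p : ℕ) [hp : Fact p.Prime]

theorem Uf_mem_WN : Uf p ∈ WN p := by
  have : NeZero p := ⟨hp.out.ne_zero⟩
  refine ⟨fun δ => ?_, Uf_smul p⟩
  by_cases hδ : δ ∈ Gamma0 p
  · have h1 : HasExp (1 * p) (Uf p) _ := (hasExp_Uf p).qExpand (m := p)
    rw [one_mul] at h1
    exact ⟨_, h1.congr (funext fun z => (Uf_smul p δ hδ z).symm) rfl⟩
  · obtain ⟨j, -, hj⟩ := Eis.exists_ST hp.out δ hδ
    obtain ⟨φ, hφ⟩ := exists_hasExp_div p (j : ℤ)
    refine ⟨φ, hφ.congr (funext fun z => ?_) rfl⟩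
    have h1 := Uf_smul p _ hj ((ModularGroup.S * ModularGroup.T ^ (j : ℤ)) • z)
    rw [← mul_smul, inv_mul_cancel_right, mul_smul, T_zpow_smul_eq_vadd] at h1
    exact h1.symm

theorem Uf_inv_mem_WN : (Uf p)⁻¹ ∈ WN p := by
  have : NeZero p := ⟨hp.out.ne_zero⟩
  refine ⟨fun δ => ?_, fun γ hγ z => ?_⟩
  · obtain ⟨φ, hφ⟩ := (Uf_mem_WN p).1 δ
    exact ⟨_, (hφ.inv fun τ => Uf_ne_zero p _).congr rfl rfl⟩
  · rw [Pi.inv_apply, Pi.inv_apply, Uf_smul p γ hγ]

end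

end Fermat.Agent.Cusp
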